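import Fermat.Agent.Carayol.CombId
import Mathlib.Data.ZMod.Units

/-!
# An identity between partial sums over `GL₂(ℤ/q^A)`, `A ≥ 2`

A function invariant on the right under the matrices upper triangular with upper right entry
divisible by `q`, and on the left under the elements congruent to one modulo a line, depends on a
row through one of three patterns only; a combination of its partial sums over two small unipotent
sets is `q²` times its value at `1`.
-/

set_option autoImplicit false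

noncomputable section

namespace Fermat.Agent.Carayol.Higher

open Matrix

variable {q A Q : ℕ}

/-- The matrices upper triangular with upper right entry divisible by `q`. -/
def fixGroup (q Q : ℕ) [NeZero Q] : Subgroup (GL (Fin 2) (ZMod Q)) where
  carrier := {g | (g : Matrix (Fin 2) (Fin 2) (ZMod Q)) 1 0 = 0 ∧
    (q : ZMod Q) ∣ (g : Matrix (Fin 2) (Fin 2) (ZMod Q)) 0 1}
  one_mem' := by simp
  mul_mem' {g h} hg hh := by
    refine ⟨?_, ?_⟩
    · simp [Matrix.mul_apply, Fin.sum_univ_two, hg.1, hh.1]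
    · simp only [Units.val_mul, Matrix.mul_apply, Fin.sum_univ_two]
      exact dvd_add (dvd_mul_of_dvd_right hh.2 _) (dvd_mul_of_dvd_left hg.2 _)
  inv_mem' {g} hg := by
    set h : Matrix (Fin 2) (Fin 2) (ZMod Q) := ↑(g⁻¹)
    have e : h * (g : Matrix (Fin 2) (Fin 2) (ZMod Q)) = 1 := Units.inv_mul g
    have e00 := congrFun (congrFun e 0) 0
    have e01 := congrFun (congrFun e 0) 1
    have e10 := congrFun (congrFun e 1) 0
    simp only [Matrix.mul_apply, Fin.sum_univ_two, hg.1, mul_zero, add_zero,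
      Matrix.one_apply_eq] at e00 e10
    simp only [Matrix.mul_apply, Fin.sum_univ_two] at e01
    rw [Matrix.one_apply_ne (by decide : (0 : Fin 2) ≠ 1)] at e01
    rw [Matrix.one_apply_ne (by decide : (1 : Fin 2) ≠ 0)] at e10
    have hg00 : IsUnit ((g : Matrix (Fin 2) (Fin 2) (ZMod Q)) 0 0) :=
      IsUnit.of_mul_eq_one_right _ e00
    have hg11 : IsUnit ((g : Matrix (Fin 2) (Fin 2) (ZMod Q)) 1 1) := by
      have := (Matrix.isUnit_iff_isUnit_det _).1 g.isUnit
      rw [Matrix.det_fin_two, hg.1, mul_zero, sub_zero] at this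
      exact isUnit_of_mul_isUnit_right this
    refine ⟨hg00.mul_left_eq_zero.1 e10, ?_⟩
    exact hg11.dvd_mul_right.1 ((eq_neg_of_add_eq_zero_right e01) ▸
      (dvd_neg.2 (dvd_mul_of_dvd_right hg.2 _)))

/-- The sum of upper unipotents. -/
def uUp (Q : ℕ) (t : ZMod q) : GL (Fin 2) (ZMod Q) := uPlus (t.val : ZMod Q)

/-- The small lower unipotents. -/
def uLow (Q A : ℕ) (t : ZMod q) : GL (Fin 2) (ZMod Q) :=
  uMinus ((q ^ (A - 1) * t.val : ℕ) : ZMod Q)

variable [NeZero q] [NeZero Q] {M : Type*} [AddCommGroup M]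

/-- The combination of partial sums. -/
def comb (A : ℕ) (Φ : GL (Fin 2) (ZMod Q) → M) : M :=
  (q : ℤ) • (∑ t : ZMod q, Φ (uUp Q t) + ∑ t : ZMod q, Φ (uLow Q A t))
    - ∑ s : ZMod q, ∑ t : ZMod q, Φ (uLow Q A s * uUp Q t)

/-- Right translates of a row. -/
theorem vecMul_uPlus (r : Fin 2 → ZMod Q) (x : ZMod Q) :
    r ᵥ* (uPlus x : Matrix (Fin 2) (Fin 2) (ZMod Q)) = ![r 0, r 1 + x * r 0] := by
  funext i
  fin_cases i <;> simp [uPlus, Matrix.vecMul, dotProduct, Fin.sum_univ_two]; ring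

/-- Right translates of a row. -/
theorem vecMul_uMinus (r : Fin 2 → ZMod Q) (x : ZMod Q) :
    r ᵥ* (uMinus x : Matrix (Fin 2) (Fin 2) (ZMod Q)) = ![r 0 + x * r 1, r 1] := by
  funext i
  fin_cases i <;> simp [uMinus, Matrix.vecMul, dotProduct, Fin.sum_univ_two]; ring

omit [NeZero q] in
theorem isUnit_iff_not_dvd (hq : q.Prime) (hA : A ≠ 0) (hQ : Q = q ^ A) {x : ZMod Q} :
    IsUnit x ↔ ¬ (q : ZMod Q) ∣ x := by
  obtain ⟨z, rfl⟩ := ZMod.natCast_zmod_surjective (n := Q) x
  have hk : ¬ IsUnit (q : ZMod Q) := by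
    rw [ZMod.isUnit_iff_coprime, hQ, Nat.coprime_pow_right_iff (Nat.pos_of_ne_zero hA)]
    exact fun h => hq.ne_one (Nat.coprime_self _ |>.1 h)
  refine ⟨fun hu ⟨y, hy⟩ => hk (isUnit_of_mul_isUnit_left (hy ▸ hu)), fun h => ?_⟩
  rw [ZMod.isUnit_iff_coprime, hQ]
  refine Nat.Coprime.pow_right _ ((hq.coprime_iff_not_dvd.2 fun hd => h ?_).symm)
  obtain ⟨y, rfl⟩ := hd
  exact ⟨y, by push_cast; ring⟩

omit [NeZero q] in
/-- The identity. -/
theorem comb_eq [NeZero q] (hq : q.Prime) (hA : 2 ≤ A) (hQ : Q = q ^ A)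
    (Φ : GL (Fin 2) (ZMod Q) → M) (hT : ∀ g, ∀ t ∈ fixGroup q Q, Φ (g * t) = Φ g)
    {v : Fin 2 → ZMod Q} (hv : ∃ i, IsUnit (v i))
    (hS : ∀ s g : GL (Fin 2) (ZMod Q), (∀ w : Fin 2 → ZMod Q, ∃ k : ZMod Q,
      (s : Matrix (Fin 2) (Fin 2) (ZMod Q)) *ᵥ w - w = k • v) → Φ (s * g) = Φ g) :
    comb (q := q) A Φ = ((q ^ 2 : ℕ) : ℤ) • Φ 1 := by
  classical
  have hu : ∀ {x : ZMod Q}, IsUnit x ↔ ¬ (q : ZMod Q) ∣ x := isUnit_iff_not_dvd hq (by omega) hQ
  let l : Fin 2 → ZMod Q := ![v 1, -v 0]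
  let row : GL (Fin 2) (ZMod Q) → Fin 2 → ZMod Q :=
    fun g => l ᵥ* (g : Matrix (Fin 2) (Fin 2) (ZMod Q))
  have hrow1 : row 1 = l := by simp [row]
  have hrow_mul : ∀ g h, row (g * h) = row g ᵥ* (h : Matrix (Fin 2) (Fin 2) (ZMod Q)) :=
    fun g h => by simp [row, Matrix.vecMul_vecMul]
  -- `Φ` depends on the row only
  have hdep : ∀ g h, row g = row h → Φ g = Φ h := by
    intro g h e
    conv_lhs => rw [show g = g * h⁻¹ * h by group]
    refine hS _ _ fun w => ?_
    have e' : row (g * h⁻¹) = l := by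
      rw [hrow_mul, e, ← hrow_mul, mul_inv_cancel, hrow1]
    set z := (↑(g * h⁻¹) : Matrix (Fin 2) (Fin 2) (ZMod Q)) *ᵥ w - w
    have hz : l ⬝ᵥ z = 0 := by
      rw [dotProduct_sub, Matrix.dotProduct_mulVec, show l ᵥ* _ = l from e', sub_self]
    simp only [l, dotProduct, Fin.sum_univ_two, Matrix.cons_val_zero, Matrix.cons_val_one] at hz
    obtain ⟨i, hi⟩ := hv
    obtain ⟨u, hu'⟩ := hi.exists_left_inv
    refine ⟨u * z i, funext fun j => ?_⟩
    show z j = u * z i * v j
    fin_cases i <;> fin_cases j <;> simp only [Fin.zero_eta, Fin.mk_one, Fin.isValue] at hu' ⊢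
    · linear_combination -(z 0) * hu'
    · linear_combination -u * hz - (z 1) * hu'
    · linear_combination u * hz - (z 0) * hu'
    · linear_combination -(z 1) * hu'
  -- rows in the same pattern
  have hcls : ∀ g h, IsUnit (row g 0) → IsUnit (row h 0) →
      (IsUnit (row g 1) ↔ IsUnit (row h 1)) → Φ g = Φ h := by
    intro g h hg hh h1
    obtain ⟨a, ha⟩ := hg
    obtain ⟨a', ha'⟩ := hh
    by_cases hg1 : IsUnit (row g 1)
    · obtain ⟨d', hd'⟩ := h1.1 hg1
      obtain ⟨d, hd⟩ := hg1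
      rw [← hT g (diagElt (a⁻¹ * a') (d⁻¹ * d')) ⟨by simp [diagElt], by simp [diagElt]⟩]
      refine hdep _ _ ?_
      rw [hrow_mul]
      funext i
      fin_cases i <;> simp [diagElt, Matrix.vecMul, dotProduct, Fin.sum_univ_two, ← ha, ← hd,
        ← ha', ← hd']
    · have hd : (q : ZMod Q) ∣ ((a⁻¹ : (ZMod Q)ˣ) : ZMod Q) * (row h 1 - row g 1) :=
        dvd_mul_of_dvd_right
          (dvd_sub (not_not.1 fun h' => hg1 (h1.2 (hu.2 h'))) (not_not.1 fun h' => hg1 (hu.2 h'))) _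
      rw [← hT g (uPlus (((a⁻¹ : (ZMod Q)ˣ) : ZMod Q) * (row h 1 - row g 1)) *
        diagElt (a⁻¹ * a') 1) ⟨by simp [uPlus, diagElt, Matrix.mul_apply, Fin.sum_univ_two],
          by simpa [uPlus, diagElt, Matrix.mul_apply, Fin.sum_univ_two] using hd⟩]
      refine hdep _ _ ?_
      rw [hrow_mul, Units.val_mul, ← Matrix.vecMul_vecMul, vecMul_uPlus]
      funext i
      fin_cases i
      · simp [diagElt, Matrix.vecMul, dotProduct, Fin.sum_univ_two, ← ha, ← ha']
      · simp [diagElt, Matrix.vecMul, dotProduct, Fin.sum_univ_two]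
        rw [← ha]
        linear_combination (row h 1 - row g 1) * a.inv_mul
  have hcls' : ∀ g h, row g 0 = row h 0 → IsUnit (row g 1) → IsUnit (row h 1) → Φ g = Φ h := by
    intro g h h0 hg hh
    obtain ⟨d, hd⟩ := hg
    obtain ⟨d', hd'⟩ := hh
    rw [← hT g (diagElt 1 (d⁻¹ * d')) ⟨by simp [diagElt], by simp [diagElt]⟩]
    refine hdep _ _ ?_
    rw [hrow_mul]
    funext i
    fin_cases i <;> simp [diagElt, Matrix.vecMul, dotProduct, Fin.sum_univ_two, ← hd, ← hd', h0]
  -- small entries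
  have hε : ∀ t : ZMod q, (q : ZMod Q) ∣ ((q ^ (A - 1) * t.val : ℕ) : ZMod Q) := fun t => by
    obtain ⟨s, hs⟩ := dvd_mul_of_dvd_left (dvd_pow_self q (by omega : A - 1 ≠ 0)) t.val
    exact ⟨(s : ℕ), by rw [hs, Nat.cast_mul]⟩
  have hup : ∀ g (t : ZMod q), row (g * uUp Q t) = ![row g 0, row g 1 + (t.val : ZMod Q) * row g 0] :=
    fun g t => by rw [hrow_mul, uUp, vecMul_uPlus]
  have hlow : ∀ g (t : ZMod q), row (g * uLow Q A t) =
      ![row g 0 + ((q ^ (A - 1) * t.val : ℕ) : ZMod Q) * row g 1, row g 1] :=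
    fun g t => by rw [hrow_mul, uLow, vecMul_uMinus]
  have hunit : ∀ {x y : ZMod Q}, (q : ZMod Q) ∣ y → (IsUnit (x + y) ↔ IsUnit x) := fun {x y} hy => by
    rw [hu, hu, not_iff_not, dvd_add_left hy]
  have hsum : ∀ f : ZMod q → M, ∀ c : M, (∀ t, f t = c) → ∑ t, f t = (q : ℤ) • c := fun f c h => by
    rw [Finset.sum_congr rfl fun t _ => h t, Finset.sum_const, Finset.card_univ, ZMod.card,
      natCast_zsmul]
  have hl1 : ¬ IsUnit (l 0) → IsUnit (l 1) := fun h => by
    obtain ⟨i, hi⟩ := hv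
    fin_cases i
    · simpa [l] using hi
    · exact absurd (by simpa [l] using hi) h
  unfold comb
  by_cases h0 : IsUnit (l 0)
  · have hS' : ∀ t : ZMod q, Φ (uLow Q A t) = Φ 1 := fun t => by
      rw [← one_mul (uLow Q A t)]
      refine hcls _ _ ?_ (by rwa [hrow1]) ?_ <;> rw [hlow, hrow1]
      · rw [Matrix.cons_val_zero]; exact (hunit (dvd_mul_of_dvd_left (hε t) _)).2 h0
      · simp
    have hS'' : ∀ s t : ZMod q, Φ (uLow Q A s * uUp Q t) = Φ (uUp Q t) := fun s t => by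
      have r1 : row (uLow Q A s) =
          ![row 1 0 + ((q ^ (A - 1) * s.val : ℕ) : ZMod Q) * row 1 1, row 1 1] := by
        rw [← hlow 1 s, one_mul]
      have r2 : row (uUp Q t) = ![row 1 0, row 1 1 + (t.val : ZMod Q) * row 1 0] := by
        rw [← hup 1 t, one_mul]
      refine hcls _ _ ?_ ?_ ?_
      · rw [hup, r1, hrow1]
        simp only [Matrix.cons_val_zero]
        exact (hunit (dvd_mul_of_dvd_left (hε s) _)).2 h0
      · rw [r2, hrow1]; simpa using h0
      · rw [hup, r1, r2, hrow1]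
        simp only [Matrix.cons_val_zero, Matrix.cons_val_one]
        rw [show l 1 + (t.val : ZMod Q) * (l 0 + ((q ^ (A - 1) * s.val : ℕ) : ZMod Q) * l 1)
          = (l 1 + (t.val : ZMod Q) * l 0) + (t.val : ZMod Q) *
            (((q ^ (A - 1) * s.val : ℕ) : ZMod Q) * l 1) by ring]
        exact hunit (dvd_mul_of_dvd_right (dvd_mul_of_dvd_left (hε s) _) _)
    rw [hsum _ _ hS', hsum (fun s => ∑ t, Φ (uLow Q A s * uUp Q t)) _
      fun s => Finset.sum_congr rfl fun t _ => hS'' s t]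
    push_cast
    module
  · have h1 := hl1 h0
    have hd0 : (q : ZMod Q) ∣ l 0 := not_not.1 fun h => h0 (hu.2 h)
    have hS' : ∀ s t : ZMod q, Φ (uLow Q A s * uUp Q t) = Φ (uLow Q A s) := fun s t => by
      have r1 : row (uLow Q A s) =
          ![row 1 0 + ((q ^ (A - 1) * s.val : ℕ) : ZMod Q) * row 1 1, row 1 1] := by
        rw [← hlow 1 s, one_mul]
      refine hcls' _ _ ?_ ?_ ?_
      · rw [hup, Matrix.cons_val_zero]
      · rw [hup, r1, hrow1]
        simp only [Matrix.cons_val_zero, Matrix.cons_val_one]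
        exact (hunit (dvd_mul_of_dvd_right (dvd_add hd0 (dvd_mul_of_dvd_left (hε s) _)) _)).2 h1
      · rw [r1, hrow1]; simpa using h1
    have hS'' : ∀ t : ZMod q, Φ (uUp Q t) = Φ 1 := fun t => by
      rw [← one_mul (uUp Q t)]
      refine hcls' _ _ ?_ ?_ (by rwa [hrow1]) <;> rw [hup, hrow1]
      · simp
      · simp only [Matrix.cons_val_zero, Matrix.cons_val_one]
        exact (hunit (dvd_mul_of_dvd_right hd0 _)).2 h1
    rw [hsum _ _ hS'', Finset.sum_congr rfl fun s _ => hsum _ _ (hS' s)]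
    rw [← Finset.smul_sum]
    push_cast
    module

/-- A combination is the sum of its coefficients times the values. -/
theorem sum_comb_smul (Φ : GL (Fin 2) (ZMod Q) → M) [DecidableEq (GL (Fin 2) (ZMod Q))] :
    ∑ g, comb (q := q) A (fun h => if h = g then (1 : ℤ) else 0) • Φ g = comb (q := q) A Φ := by
  simp only [comb, smul_eq_mul, sub_smul, mul_smul, add_smul, Finset.sum_smul, ite_smul,
    one_smul, zero_smul, Finset.sum_sub_distrib, Finset.sum_add_distrib, ← Finset.smul_sum]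
  congr 1
  · congr 1
    congr 1 <;> rw [Finset.sum_comm] <;> simp
  · rw [Finset.sum_comm]
    refine Finset.sum_congr rfl fun s _ => ?_
    rw [Finset.sum_comm]
    simp

/-- The combination at the prime power. -/
def higherComb [NeZero q] (hq : q.Prime) (hA : 2 ≤ A) (hQ : Q = q ^ A) : CombId Q where
  fix := fixGroup q Q
  coeffs g := comb (q := q) A fun h => if h = g then (1 : ℤ) else 0
  exp := q ^ 2
  exp_pos := pow_pos hq.pos 2
  hid M _ Φ hT v hv hS := by
    rw [← comb_eq hq hA hQ Φ hT hv hS]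
    exact sum_comb_smul Φ

lemma sum_higherComb (hq : q.Prime) (hA : 2 ≤ A) (hQ : Q = q ^ A)
    (Φ : GL (Fin 2) (ZMod Q) → M) :
    ∑ g, (higherComb hq hA hQ).coeffs g • Φ g = comb (q := q) A Φ :=
  sum_comb_smul Φ

end Fermat.Agent.Carayol.Higher

end
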