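import Fermat.Agent.Carayol.Consumer
import Fermat.Agent.RT.Frey.Modular
import Fermat.Agent.RT.Assembly.Forms
import Fermat.Agent.ConductorLevel.Assembly

/-!
# A conductor level from modularity of the Frey curve

With the geometric bound at every prime, the newform of a modular semistable curve has squarefree
level, without hypothesis on the level.
-/

set_option autoImplicit false

noncomputable section

open WeierstrassCurve CongruenceSubgroup ModularFormClass Polynomial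

namespace Fermat.Agent.Carayol.Higher

open ConductorLevel (NewformRepInput MatchesCurve eigenChar eigenChar_T eigenChar_range_le)

/-- The newform of a semistable curve has no square in its level. -/
theorem not_sq_dvd_of_matches
    (hES : ∀ (N p : ℕ) [NeZero N] [Fact p.Prime], GaloisReps.CongruenceProperty N p)
    (hB : ∀ (q M : ℕ) [NeZero q] [NeZero M], q.Prime → FixedNewTorsionBound q M)
    {W : WeierstrassCurve ℤ} {M : ℕ} [NeZero M] {g : CuspForm (Gamma0 M) 2}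
    (hss : W.IsSemistableModel) (hΔ0 : W.Δ ≠ 0) (hg : g.IsNewform)
    {p : ℕ} [Fact p.Prime] (hp2 : p ≠ 2) {S : Finset ℕ} (hpS : p ∈ S)
    (hMS : ∀ q : ℕ, q.Prime → q ∣ M → q ∈ S)
    (hS : ∀ ℓ : ℕ, ℓ.Prime → ℓ ∉ S → W.IsGoodPrimeFor ℓ)
    (hgW : ∀ ℓ : ℕ, ℓ.Prime → ℓ ∉ S → qCoeff g ℓ = (W.apOfModel ℓ : ℂ))
    {q : ℕ} (hq : q.Prime) (hqp : q ≠ p) : ¬ q ^ 2 ∣ M := by
  intro hq2
  have hR : (eigenChar hg.1 (↑S : Set ℕ)).range ≤ (⊥ : Subalgebra ℤ ℂ).toSubring :=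
    eigenChar_range_le hg.1 ⊥ fun ℓ hℓ hℓS =>
      Algebra.mem_bot.2 ⟨W.apOfModel ℓ, by simp [hgW ℓ hℓ (by simpa using hℓS)]⟩
  let φ : (⊥ : Subalgebra ℤ ℂ).toSubring →+* ℤ_[p] :=
    (Int.castRingHom ℤ_[p]).comp
      (Algebra.botEquivOfInjective (R := ℤ) (A := ℂ) Int.cast_injective).toRingEquiv.toRingHom
  obtain ⟨O, _, _, _, _, _, _, _, _, _, -, ρ, hρ, hnot⟩ :=
    exists_rep_not_unipotent_of hES Set.univ (fun q M' _ _ hq _ _ => hB q M' hq) hg p S ℤ_[p]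
      (ConductorLevel.natCast_mem_maximalIdeal_padicInt p) hp2 (eigenChar hg.1 (↑S : Set ℕ))
      (fun ℓ hℓ hℓM hℓS => eigenChar_T hg.1 hℓ hℓM hℓS) (φ.comp (Subring.inclusion hR)) hpS hMS
  have hρW : MatchesCurve ρ W S := fun ℓ hℓ hℓS A hA σ hσ => by
    have hℓM : ¬ ℓ ∣ M := fun hd => hℓS (hMS ℓ hℓ hd)
    rw [hρ ℓ hℓ hℓM (by simpa using hℓS) A hA σ hσ,
      ConductorLevel.intCast_range_map _ hR φ
        (by rw [eigenChar_T]; exact hgW ℓ hℓ hℓS), map_intCast]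
  have hpO : (p : O) ∈ IsLocalRing.maximalIdeal O := by
    rw [← map_natCast (algebraMap ℤ_[p] O)]
    exact map_nonunit _ _ (ConductorLevel.natCast_mem_maximalIdeal_padicInt p)
  exact hnot q hq hqp (Set.mem_univ q) hq2
    (ConductorLevel.isUnipotentOnInertiaAt_of_matches hss hΔ0 hρW hS Fact.out hpS hpO hq hqp)

/-- Integral models of one elliptic curve have equal `a_ℓ` at common good primes. -/
theorem apOfModel_eq {E : WeierstrassCurve ℚ} [E.IsElliptic] {W W' : WeierstrassCurve ℤ}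
    (hW : W.IsIntegralModelOf E) (hW' : W'.IsIntegralModelOf E) {ℓ : ℕ} (hℓ : ℓ.Prime)
    (hgood : W.IsGoodPrimeFor ℓ) (hgood' : W'.IsGoodPrimeFor ℓ) :
    W.apOfModel ℓ = W'.apOfModel ℓ := by
  obtain ⟨p, hp', hp⟩ :=
    Nat.exists_infinite_primes (max (ℓ + 1) ((W.apOfModel ℓ - W'.apOfModel ℓ).natAbs + 1))
  have := Fact.mk hp
  have h := RT.Assembly.apOfModel_cast_eq hW hW' (p := p) hℓ hgood hgood' (by omega)
  rw [ZMod.intCast_eq_intCast_iff_dvd_sub] at h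
  refine (sub_eq_zero.mp (Int.natAbs_eq_zero.mp (Nat.eq_zero_of_dvd_of_lt (Int.natCast_dvd.mp h) ?_))).symm
  rw [← Int.natAbs_neg, neg_sub]
  omega

/-- A conductor level at which the Frey representation is modular. -/
theorem exists_conductorLevel_of_isModular
    (hES : ∀ (N p : ℕ) [NeZero N] [Fact p.Prime], GaloisReps.CongruenceProperty N p)
    (hB : ∀ (q M : ℕ) [NeZero q] [NeZero M], q.Prime → FixedNewTorsionBound q M)
    (h35 : NewformRepInput) (P : FreyPackage) (hmod : P.freyCurve.IsModular) :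
    ∃ N : ℕ, P.IsConductorLevel N ∧ P.ModularRepOfLevel N := by
  classical
  obtain ⟨W₀, hW₀, N, hN, f, hf, hfW⟩ := hmod
  set W := P.freyCurveInt
  have hW := RT.Frey.freyCurveInt_isIntegralModel P
  have hss := RT.Frey.freyCurveInt_isSemistableModel P
  have hΔ : W.Δ ≠ 0 := EC.Reduction.Frey.Δ_ne_zero P
  have hΔℚ : P.freyCurve.Δ ≠ 0 := by
    rw [EC.Reduction.Frey.freyCurve_eq_map, map_Δ]
    simpa using hΔ
  have : P.freyCurve.IsElliptic := (isElliptic_iff _).mpr (isUnit_iff_ne_zero.mpr hΔℚ)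
  have hΔ₀ : W₀.Δ ≠ 0 := by
    obtain ⟨C, hC⟩ := hW₀
    intro h
    have h' := congrArg WeierstrassCurve.Δ hC
    rw [variableChange_Δ, map_Δ, h, map_zero] at h'
    simp [hΔℚ] at h'
  obtain ⟨M, hMN, g, hg, hgf⟩ := ConductorLevel.exists_newform_below hN.ne' hf
  have : NeZero M := ⟨fun h => hN.ne' (by simpa [h] using hMN)⟩
  let S : ℕ → Finset ℕ := fun lam =>
    insert lam (N.primeFactors ∪ (W.Δ.natAbs.primeFactors ∪ W₀.Δ.natAbs.primeFactors))
  have hout : ∀ lam ℓ : ℕ, ℓ.Prime → ℓ ∉ S lam →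
      ¬ ℓ ∣ N ∧ W.IsGoodPrimeFor ℓ ∧ W₀.IsGoodPrimeFor ℓ := fun lam ℓ hℓ h => by
    simp only [S, Finset.mem_insert, Finset.mem_union, not_or] at h
    exact ⟨fun hd => h.2.1 (Nat.mem_primeFactors.2 ⟨hℓ, hd, hN.ne'⟩),
      fun hd => h.2.2.1 (Nat.mem_primeFactors.2
        ⟨hℓ, Int.natCast_dvd.mp hd, Int.natAbs_ne_zero.mpr hΔ⟩),
      fun hd => h.2.2.2 (Nat.mem_primeFactors.2
        ⟨hℓ, Int.natCast_dvd.mp hd, Int.natAbs_ne_zero.mpr hΔ₀⟩)⟩
  have hMS : ∀ lam q : ℕ, q.Prime → q ∣ M → q ∈ S lam := fun lam q hq hd =>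
    Finset.mem_insert_of_mem (Finset.mem_union_left _
      (Nat.mem_primeFactors.2 ⟨hq, hd.trans hMN, hN.ne'⟩))
  have hS : ∀ lam ℓ : ℕ, ℓ.Prime → ℓ ∉ S lam → W.IsGoodPrimeFor ℓ := fun lam ℓ hℓ h =>
    (hout lam ℓ hℓ h).2.1
  have hgW : ∀ lam ℓ : ℕ, ℓ.Prime → ℓ ∉ S lam → qCoeff g ℓ = (W.apOfModel ℓ : ℂ) :=
    fun lam ℓ hℓ h => by
      obtain ⟨h1, h2, h3⟩ := hout lam ℓ hℓ h
      rw [hgf ℓ hℓ h1, hfW ℓ hℓ h3 h1, apOfModel_eq hW₀ hW hℓ h3 h2]
  have hsq : ∀ q : ℕ, q.Prime → ¬ q ^ 2 ∣ M := fun q hq => by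
    by_cases h3 : q = 3
    · have := Fact.mk (show Nat.Prime 5 by norm_num)
      exact not_sq_dvd_of_matches hES hB hss hΔ hg (p := 5) (by norm_num)
        (Finset.mem_insert_self _ _) (hMS 5) (hS 5) (hgW 5) hq (by omega)
    · have := Fact.mk Nat.prime_three
      exact not_sq_dvd_of_matches hES hB hss hΔ hg (p := 3) (by norm_num)
        (Finset.mem_insert_self _ _) (hMS 3) (hS 3) (hgW 3) hq h3
  obtain ⟨𝔪, h𝔪, hpm⟩ := FLTPrelim.exists_maximalIdeal_natCast_prime_mem P.pp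
  refine ⟨M, ⟨Nat.pos_of_ne_zero (NeZero.ne M), Nat.squarefree_iff_prime_squarefree.2
      fun q hq h => hsq q hq (by rwa [sq]), fun q hq hqM => by_contra fun h => ?_⟩,
    g, W, 𝔪, hg.1, hW, h𝔪, hpm, fun ℓ hℓ hgood hℓM _ => ?_⟩
  · have hgood : W.IsGoodPrimeFor q := EC.Reduction.Frey.not_dvd_Δ P hq h
    obtain ⟨lam, hlam, hne⟩ : ∃ lam : ℕ, lam.Prime ∧ q ≠ lam := by
      by_cases h2 : q = 2
      · exact ⟨3, Nat.prime_three, by omega⟩
      · exact ⟨2, Nat.prime_two, h2⟩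
    have := Fact.mk hlam
    exact ConductorLevel.not_good_of_dvd_level h35 hΔ hg (hMS lam) (hS lam) (hgW lam)
      (Finset.mem_insert_self _ _) hq hne hqM (hsq q hq) hgood
  · refine ⟨(W.apOfModel ℓ : integralClosure ℤ ℂ), ?_, by rw [sub_self]; exact zero_mem _⟩
    rw [ConductorLevel.qCoeff_eq_of_good h35 hΔ hg (hMS 3) (hS 3) (hgW 3) hℓ hgood hℓM]
    norm_cast

end Fermat.Agent.Carayol.Higher

end
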