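import Fermat.Agent.Carayol.Omega.Maps
import Fermat.Agent.Carayol.Higher.Comb

/-!
# The invariants `j (dτ/q^A)` in the field of level `q^A n`

`τ ↦ τ/q^A` sends `j (dτ)`, `d ∣ q^(A+1) M`, into the field of level `q^A n`. The group `fixGroup`
fixes the images; the upper unipotents fix them for `d ∣ q^A M`, the small lower ones for `q ∣ d`,
and move the images of `j (q^(A+1) τ)`, respectively `j (τ)`.
-/

set_option autoImplicit false
set_option linter.unusedSectionVars false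

noncomputable section

open UpperHalfPlane hiding I
open Complex Function Matrix CongruenceSubgroup
open scoped MatrixGroups

namespace Fermat.Agent.Carayol.Higher

open Fermat.Agent.ModFun
open Fermat.Agent.Carayol.Omega
open ModularCurve (coeffMap qExpand jqModC)

variable {q A Q n : ℕ} [NeZero q] [NeZero Q] [NeZero n] [NeZero (Q * n)]
  {K : Type*} [Field K] [CharZero K] (E : Setup (Q * n) K) (k : Type*) [Field k] [Algebra k K]
  {P : ZMod (Q * n) × ZMod (Q * n)} (hP : GoodPt P) (hcop : Q.Coprime n)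

theorem nsmul_natCast_crt (i : ℕ) (x : ZMod (Q * n)) :
    crt hcop (i • x) = ((i : ZMod Q) * (crt hcop x).1, (i : ZMod n) * (crt hcop x).2) := by
  rw [map_nsmul, Prod.ext_iff]
  exact ⟨by rw [Prod.smul_fst, nsmul_eq_mul], by rw [Prod.smul_snd, nsmul_eq_mul]⟩

theorem mul_eq_zero_of_parts {x : ZMod (Q * n)} {g : Matrix (Fin 2) (Fin 2) (ZMod Q)} {i j : Fin 2}
    (hij : i ≠ j) (hz : (crt hcop x).1 * g j i = 0) : x * liftMat hcop g i j = 0 := by
  apply (crt hcop).injective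
  rw [map_mul, crt_liftMat, Matrix.one_apply_ne hij, map_zero]
  exact Prod.ext hz (mul_zero _)

include hP hcop

/-- The box whose invariant is `j (dτ/q^A)`. -/
theorem exists_box (hq : q.Prime) (hQ : Q = q ^ A) {M d : ℕ} [NeZero d] (hM : M ∣ n)
    (hd : d ∣ q ^ (A + 1) * M) (hA : A ≠ 0) :
    ∃ x : E.field k, (x : LaurentSeries K) = qExpand K n (qExpand K d (jqModC K)) ∧
      ∃ i d₀, d = q ^ i * d₀ ∧ ¬ q ∣ d₀ ∧ d₀ ∣ n ∧ i ≤ A + 1 ∧
        x = E.fJ k hP (boxLabels (Q * n) (q ^ (A - i)) (q ^ (i - A) * d₀)) := by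
  set i := d.factorization q
  set d₀ := d / q ^ i with hd₀
  have hd_eq : d = q ^ i * d₀ := (Nat.ordProj_mul_ordCompl_eq_self d q).symm
  have hnd : ¬ q ∣ d₀ := Nat.not_dvd_ordCompl hq (NeZero.ne d)
  have hc : d₀.Coprime q := ((hq.coprime_iff_not_dvd).mpr hnd).symm
  have hd₀M : d₀ ∣ M := (hc.pow_right (A + 1)).dvd_of_dvd_mul_left
    ((Dvd.intro_left _ hd_eq.symm).trans hd)
  have hn : ¬ q ∣ n → i ≤ A + 1 := fun hqn => by
    have h1 : q ^ i ∣ q ^ (A + 1) * M := (Dvd.intro _ hd_eq.symm).trans hd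
    have hqM : (q ^ i).Coprime M :=
      ((hq.coprime_iff_not_dvd.mpr fun h => hqn (h.trans hM))).pow_left i
    exact (Nat.pow_dvd_pow_iff_le_right hq.one_lt).1 (hqM.dvd_of_dvd_mul_right h1)
  have hi := hn fun h => hq.not_dvd_one (hcop ▸ Nat.dvd_gcd (hQ ▸ dvd_pow_self q hA) h)
  have h1 : q ^ (A - i) ∣ Q * n := dvd_mul_of_dvd_left (hQ ▸ pow_dvd_pow q (by omega)) _
  have h2 : q ^ (i - A) * d₀ ∣ Q * n :=
    mul_dvd_mul (hQ ▸ pow_dvd_pow q (by omega)) (hd₀M.trans hM)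
  have hm : Q * n / q ^ (A - i) * (q ^ (i - A) * d₀) = n * d := by
    rcases le_total i A with h | h
    · rw [Nat.sub_eq_zero_of_le h, pow_zero, one_mul, hQ,
        show q ^ A = q ^ (A - i) * q ^ i by rw [← pow_add, Nat.sub_add_cancel h],
        mul_assoc, Nat.mul_div_cancel_left _ (pow_pos hq.pos _), hd_eq]
      ring
    · rw [Nat.sub_eq_zero_of_le h, pow_zero, Nat.div_one, hQ, hd_eq,
        show q ^ i = q ^ A * q ^ (i - A) by rw [← pow_add, Nat.add_sub_cancel' h]]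
      ring
  obtain ⟨x, hx, hx'⟩ := E.qExpand_jq_mem k hP _ _ (n * d) h1 h2 hm
  exact ⟨x, by rw [ModularCurve.qExpand_qExpand, hx], i, d₀, hd_eq, hnd, hd₀M.trans hM, hi, hx'⟩

/-- `j (dτ/q^A)` lies in the field for `d ∣ q^(A+1) M`. -/
theorem qExpand_jd_mem (hq : q.Prime) (hQ : Q = q ^ A) {M d : ℕ} [NeZero d] (hM : M ∣ n)
    (hd : d ∣ q ^ (A + 1) * M) (hA : A ≠ 0) : qExpand K n (qExpand K d (jqModC K)) ∈ E.field k := by
  obtain ⟨x, hx, -⟩ := exists_box E k hP hcop hq hQ hM hd hA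
  exact hx ▸ x.2

variable {k} in
/-- The stability criterion for the box of `j (dτ/q^A)`. -/
theorem fixed_of_entries (hq : q.Prime) (hQ : Q = q ^ A) {M d : ℕ} [NeZero d] (hM : M ∣ n)
    (hd : d ∣ q ^ (A + 1) * M) (hA : A ≠ 0) {g : GL (Fin 2) (ZMod Q)}
    (h01 : q ^ (A + 1) ∣ d → (q : ZMod Q) ∣ (g : Matrix (Fin 2) (Fin 2) (ZMod Q)) 0 1)
    (h10 : ∀ i, q ^ i ∣ d → ¬ q ^ (i + 1) ∣ d → i < A →
      (q ^ i : ZMod Q) * (g : Matrix (Fin 2) (Fin 2) (ZMod Q)) 1 0 = 0)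
    {e : E.field k ≃ₐ[k] E.field k}
    (he : E.Moves k e (liftMat hcop (g : Matrix (Fin 2) (Fin 2) (ZMod Q)))) {y : E.field k}
    (hy : (y : LaurentSeries K) = qExpand K n (qExpand K d (jqModC K))) : e y = y := by
  obtain ⟨x, hx, i, d₀, hdeq, hnd, hd₀, hi, hbox⟩ := exists_box E k hP hcop hq hQ hM hd hA
  obtain rfl : y = x := Subtype.ext (hy.trans hx.symm)
  rw [hbox, he.apply_fJ' E k hP, moveSet_boxLabels (isUnit_liftMat hcop g) ?_ ?_]
  · intro x hx
    rcases Nat.lt_or_ge A i with h | h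
    · obtain rfl : i = A + 1 := by omega
      rw [Nat.sub_eq_zero_of_le h.le, pow_zero, one_smul]
      rw [show A + 1 - A = 1 by omega, pow_one] at hx
      refine mul_eq_zero_of_parts hcop (by decide) ?_
      have h1 := congrArg Prod.fst (congrArg (crt hcop) hx)
      rw [nsmul_natCast_crt, map_zero, Prod.fst_zero, Nat.cast_mul, mul_comm (q : ZMod Q),
        mul_assoc] at h1
      have hu : IsUnit (d₀ : ZMod Q) := by
        rw [ZMod.isUnit_iff_coprime, hQ]
        exact ((hq.coprime_iff_not_dvd.mpr hnd).symm).pow_right _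
      obtain ⟨t, ht⟩ := h01 (Dvd.intro _ hdeq.symm)
      rw [ht, ← mul_assoc, mul_comm ((crt hcop x).1) (q : ZMod Q), hu.mul_right_eq_zero.1 h1,
        zero_mul]
    · rw [Nat.sub_eq_zero_of_le h, pow_zero, one_mul] at hx
      rw [mul_liftMat_eq_zero hcop (by decide) hd₀ hx, smul_zero]
  · intro x hx
    rcases Nat.lt_or_ge i A with h | h
    · have h1 : (crt hcop x).1 * (q ^ (A - i) : ℕ) = 0 := by
        have := congrArg Prod.fst (congrArg (crt hcop) hx)
        rw [nsmul_natCast_crt, map_zero, Prod.fst_zero] at this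
        rw [mul_comm]; exact this
      obtain ⟨z, hz⟩ := ZMod.natCast_zmod_surjective (n := Q) (crt hcop x).1
      obtain ⟨z', rfl⟩ : q ^ i ∣ z := by
        rw [← hz, ← Nat.cast_mul, ZMod.natCast_eq_zero_iff, hQ,
          show q ^ A = q ^ i * q ^ (A - i) by rw [← pow_add, Nat.add_sub_cancel' h.le]] at h1
        exact Nat.dvd_of_mul_dvd_mul_right (pow_pos hq.pos _) h1
      rw [mul_eq_zero_of_parts hcop (by decide) ?_, smul_zero]
      rw [← hz, Nat.cast_mul, Nat.cast_pow]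
      have h2 := h10 i (Dvd.intro _ hdeq.symm) (fun hh => hnd (by
        rw [hdeq, pow_succ] at hh
        exact Nat.dvd_of_mul_dvd_mul_left (pow_pos hq.pos _) hh)) h
      linear_combination (z' : ZMod Q) * h2
    · rw [Nat.sub_eq_zero_of_le h, pow_zero, one_smul] at hx
      simp [hx]

variable {k} in
/-- The group `fixGroup` fixes every `j (dτ/q^A)`. -/
theorem fixed_fixGroup (hq : q.Prime) (hQ : Q = q ^ A) {M d : ℕ} [NeZero d] (hM : M ∣ n)
    (hd : d ∣ q ^ (A + 1) * M) (hA : A ≠ 0) {g : GL (Fin 2) (ZMod Q)} (hg : g ∈ fixGroup q Q)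
    {e : E.field k ≃ₐ[k] E.field k}
    (he : E.Moves k e (liftMat hcop (g : Matrix (Fin 2) (Fin 2) (ZMod Q)))) {y : E.field k}
    (hy : (y : LaurentSeries K) = qExpand K n (qExpand K d (jqModC K))) : e y = y :=
  fixed_of_entries E hP hcop hq hQ hM hd hA (fun _ => hg.2) (fun i _ _ _ => by rw [hg.1, mul_zero])
    he hy

variable {k} in
/-- Upper unipotents fix `j (dτ/q^A)` for `d ∣ q^A M`. -/
theorem fixed_uUp (hq : q.Prime) (hA : A ≠ 0) (hQ : Q = q ^ A) {M d : ℕ} [NeZero d] (hM : M ∣ n)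
    (hd : d ∣ q ^ A * M) (t : ZMod q) {e : E.field k ≃ₐ[k] E.field k}
    (he : E.Moves k e (liftMat hcop (uUp Q t : Matrix (Fin 2) (Fin 2) (ZMod Q)))) {y : E.field k}
    (hy : (y : LaurentSeries K) = qExpand K n (qExpand K d (jqModC K))) : e y = y := by
  refine fixed_of_entries E hP hcop hq hQ hM
    (hd.trans (mul_dvd_mul_right (pow_dvd_pow q (by omega)) M)) hA (fun h => ?_)
    (fun i _ _ _ => by simp [uUp, uPlus]) he hy
  exfalso
  have hqn : ¬ q ∣ n := fun h => hq.not_dvd_one (hcop ▸ Nat.dvd_gcd (hQ ▸ dvd_pow_self q hA) h)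
  have h1 : q ^ (A + 1) ∣ q ^ A :=
    (((hq.coprime_iff_not_dvd.mpr fun h => hqn (h.trans hM))).pow_left _).dvd_of_dvd_mul_right
      (h.trans hd)
  have := (Nat.pow_dvd_pow_iff_le_right hq.one_lt).1 h1
  omega

variable {k} in
/-- The small lower unipotents fix `j (dτ/q^A)` for `q ∣ d`. -/
theorem fixed_uLow (hq : q.Prime) (hA : A ≠ 0) (hQ : Q = q ^ A) {M d : ℕ} [NeZero d] (hM : M ∣ n)
    (hd : d ∣ q ^ (A + 1) * M) (hqd : q ∣ d) (t : ZMod q) {e : E.field k ≃ₐ[k] E.field k}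
    (he : E.Moves k e (liftMat hcop (uLow Q A t : Matrix (Fin 2) (Fin 2) (ZMod Q))))
    {y : E.field k} (hy : (y : LaurentSeries K) = qExpand K n (qExpand K d (jqModC K))) :
    e y = y := by
  refine fixed_of_entries E hP hcop hq hQ hM hd hA (fun _ => by simp [uLow, uMinus]) ?_ he hy
  intro i _ h2 _
  have hi : i ≠ 0 := by rintro rfl; exact h2 (by simpa using hqd)
  obtain ⟨j, rfl⟩ := Nat.exists_eq_succ_of_ne_zero hi
  simp only [uLow, uMinus, Matrix.of_apply, Matrix.cons_val_one, Matrix.cons_val_zero]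
  rw [show (q : ZMod Q) ^ j.succ * ((q ^ (A - 1) * t.val : ℕ) : ZMod Q) =
    ((q ^ A * (q ^ j * t.val) : ℕ) : ZMod Q) by
      rw [show q ^ A = q * q ^ (A - 1) by rw [← pow_succ', Nat.sub_add_cancel (by omega)]]
      push_cast [pow_succ]; ring]
  rw [ZMod.natCast_eq_zero_iff, hQ]
  exact dvd_mul_right _ _

variable {k} in
/-- An upper unipotent fixing `j (qτ)` has entry divisible by `q`. -/
theorem dvd_of_uPlus_fix (hQ : Q = q ^ A) (hA : A ≠ 0) {a : ZMod Q} {e : E.field k ≃ₐ[k] E.field k}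
    (he : E.Moves k e (liftMat hcop (uPlus a : Matrix (Fin 2) (Fin 2) (ZMod Q)))) {y : E.field k}
    (hy : (y : LaurentSeries K) = qExpand K n (qExpand K (Q * q) (jqModC K)))
    (hfix : e y = y) : (q : ZMod Q) ∣ a := by
  obtain ⟨α, hα⟩ := ZMod.intCast_surjective
    (liftMat hcop (uPlus a : Matrix (Fin 2) (Fin 2) (ZMod Q)) 1 0)
  let γ : SL(2, ℤ) := ⟨!![1, 0; α, 1], by simp⟩
  have hγ : redMat (Q * n) γ = liftMat hcop (uPlus a : Matrix (Fin 2) (Fin 2) (ZMod Q)) := by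
    ext i j
    apply (crt hcop).injective
    rw [crt_liftMat]
    fin_cases i <;> fin_cases j
    · simp [γ, redMat, uPlus, Prod.ext_iff]
    · simp [γ, redMat, uPlus, Prod.ext_iff]
    · show crt hcop (α : ZMod (Q * n)) = _
      rw [hα, crt_liftMat]
      rfl
    · simp [γ, redMat, uPlus, Prod.ext_iff]
  have hqQ : q ∣ Q := hQ ▸ dvd_pow_self q hA
  obtain ⟨hmem, hser⟩ := E.exists_jUV 1 q (one_dvd _)
  have : NeZero (Q * n / 1 * q) :=
    ⟨by rw [Nat.div_one]; exact mul_ne_zero (NeZero.ne _) (NeZero.ne _)⟩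
  have h : (1 : SL(2, ℤ)) * γ * 1⁻¹ ∈ Gamma0 q := by
    refine E.conj_mem_Gamma0_of_fix k (dvd_mul_of_dvd_left hqQ n) 1 γ ⟨_, hmem⟩
      (fun τ => by rw [one_smul]; rfl) (hγ ▸ he) (x := y) ?_ hfix
    rw [hy, hser, ModularCurve.qExpand_qExpand]
    exact ModularCurve.qExpand_congr (by rw [Nat.div_one]; ring) _
  rw [one_mul, inv_one, mul_one, Gamma0_mem, ZMod.intCast_zmod_eq_zero_iff_dvd] at h
  obtain ⟨s, hs⟩ : (q : ℤ) ∣ α := h
  have := congrArg (fun z => (crt hcop z).1) hα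
  simp only [map_intCast, Prod.fst_intCast, crt_liftMat] at this
  exact ⟨(s : ℤ), by simpa [uPlus, hs] using this.symm⟩

variable {k} in
/-- A lower unipotent fixing `j (τ/q^A)` is trivial. -/
theorem eq_zero_of_uMinus_fix {a : ZMod Q} {e : E.field k ≃ₐ[k] E.field k}
    (he : E.Moves k e (liftMat hcop (uMinus a : Matrix (Fin 2) (Fin 2) (ZMod Q)))) {y : E.field k}
    (hy : (y : LaurentSeries K) = qExpand K n (jqModC K)) (hfix : e y = y) : a = 0 :=
  E.eq_zero_of_uMinus_fix hP hcop he hy hfix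

end Fermat.Agent.Carayol.Higher

end
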