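import Fermat.Agent.Carayol.Geometric
import Fermat.Agent.Carayol.Higher.Maps

/-!
# The geometric theorem at a prime whose cube divides the level

The level `q M q` with `q ∣ M` is `q^(A+1) M₀`, `A ≥ 2`; a new torsion class fixed by inertia gives
a function at level `q^A n` fixed by `fixGroup` whose norms along the two degeneracy maps are
powers up to constants, and the integral study at level `q^A n` bounds it.
-/

set_option autoImplicit false
set_option synthInstance.maxHeartbeats 100000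

noncomputable section

namespace Fermat.Agent.Carayol.Higher

open ModularCurve AlgebraicCurve
open Fermat.Agent.Arith Fermat.Agent.OrdinaryAtP Fermat.Agent.Carayol.Omega

/-- Automorphisms over the inertia field moving the roots of unity of order `q ^ A` as
prescribed. -/
theorem exists_aut_inertiaField {A : ValuationSubring QBar} {q : ℕ} (hA : A.LiesOverPrime q)
    (hq : q.Prime) {e Q n : ℕ} (hQ : Q = q ^ (e + 1)) (hn : ¬ q ∣ n) {ζ : QBar}
    (hζ : IsPrimitiveRoot ζ (Q * n)) (d : (ZMod Q)ˣ) :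
    ∃ σ : QBar ≃ₐ[inertiaField A] QBar,
      σ (ζ ^ Q) = ζ ^ Q ∧ σ (ζ ^ n) = (ζ ^ n) ^ (d : ZMod Q).val := by
  have hn0 : n ≠ 0 := fun h => hn (h ▸ dvd_zero q)
  have hQ0 : 0 < Q := hQ ▸ pow_pos hq.pos _
  have hpos : 0 < Q * n := Nat.mul_pos hQ0 (Nat.pos_of_ne_zero hn0)
  have : NeZero Q := ⟨hQ0.ne'⟩
  have h1 : IsPrimitiveRoot (ζ ^ n) Q := hζ.pow hpos (mul_comm Q n)
  have h2 : IsPrimitiveRoot ((ζ ^ n) ^ (d : ZMod Q).val) Q :=
    h1.pow_of_coprime _ (ZMod.val_coe_unit_coprime d)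
  obtain ⟨σ, hσ, hσζ⟩ := Mazur.Eisenstein.exists_inertia_apply hA hq (m := e)
    (ζ := ζ ^ n) (η := (ζ ^ n) ^ (d : ZMod Q).val) (hQ ▸ h1) (hQ ▸ h2)
  refine ⟨{ σ.toRingEquiv with commutes' := fun x => (mem_inertiaField A).mp x.2 σ hσ }, ?_, hσζ⟩
  exact inertia_root hA hq hσ (m := n) (by rw [← pow_mul, hζ.pow_eq_one]) hn

section Lam

variable {K Ω : Type*} [Field K] [Field Ω] [Algebra K Ω] [DecidableEq Ω] (L : TateLevel K Ω)
  {q A : ℕ} [NeZero q]

/-- If both products are constants times powers, so is the combination. -/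
theorem lam_mem_constMulPow (hq : q.Prime) (hA : 2 ≤ A) (hQ : L.frame.Q = q ^ A) {m : ℕ} {f : Ωˣ}
    (hup : ∏ t : ZMod q, L.transl f (uUp L.frame.Q t) ∈ constMulPow K Ω m)
    (hlow : ∏ t : ZMod q, L.transl f (uLow L.frame.Q A t) ∈ constMulPow K Ω m) :
    L.lam (higherComb hq hA hQ) (L.transl f) ∈ constMulPow K Ω m := by
  classical
  set S := Subgroup.toAddSubgroup (constMulPow K Ω m)
  have h1 : ∀ u : ZMod q → GL (Fin 2) (ZMod L.frame.Q),
      ∏ t, L.transl f (u t) ∈ constMulPow K Ω m →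
        ∑ t, Additive.ofMul (L.transl f (u t)) ∈ S := fun u hu => by rw [← ofMul_prod]; exact hu
  have h2 : ∀ h : GL (Fin 2) (ZMod L.frame.Q),
      ∑ t : ZMod q, Additive.ofMul (L.transl f (h * uUp L.frame.Q t)) ∈ S := fun h => by
    rw [← ofMul_prod]
    have := transl_mem_constMulPow L hup h
    rwa [show L.transl (∏ t : ZMod q, L.transl f (uUp L.frame.Q t)) h =
      ∏ t : ZMod q, L.transl f (h * uUp L.frame.Q t) from ?_] at this
    simp only [TateLevel.transl_mul_apply]
    exact map_prod (Units.map (L.act h).toRingEquiv.toRingHom.toMonoidHom) _ _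
  show Additive.toMul (∑ g, (higherComb hq hA hQ).coeffs g • Additive.ofMul (L.transl f g)) ∈ _
  rw [sum_higherComb]
  change comb (q := q) A (fun g => Additive.ofMul (L.transl f g)) ∈ S
  unfold comb
  exact sub_mem (zsmul_mem (add_mem (h1 _ hup) (h1 _ hlow)) _) (sum_mem fun s _ => h2 _)

end Lam

attribute [local instance 2000] Omega.serAlg

open scoped Classical

variable {q e Q M₀ n : ℕ} [NeZero q] [NeZero M₀] [NeZero Q] [NeZero n] [NeZero (Q * n)]

set_option maxHeartbeats 2000000 in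
/-- The bound at one place over `q`, in level `q^(e+3) M₀`. -/
theorem smul_eq_zero_of_fixed (E : Setup (Q * n) QBar) (hq : q.Prime) (hQ : Q = q ^ (e + 2))
    (hqn : ¬ q ∣ n) (hM : M₀ ∣ n) {L : ℕ} (hL : L = 7 ∨ L = 9) (hLn : L ∣ n) {M : ℕ} [NeZero M]
    (hM' : M = q ^ (e + 1) * M₀) {m : ℕ} (hm : 0 < m) (hmq : m.Coprime q)
    {A : ValuationSubring QBar} (hA : A.LiesOverPrime q) {x : JZero (q * M * q)} (hx : m • x = 0)
    (hfix : ∀ σ ∈ A.inertiaSubgroupIn ℚ, σ • x = x) (hnew : IsNewClass q M x) :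
    (glueExp (higherComb hq (Nat.le_add_left 2 e) hQ) *
      (Nat.card (Matrix (Fin 2) (Fin 2) (ZMod (Q * n)))).factorial) • x = 0 := by
  have hA2 : 2 ≤ e + 2 := Nat.le_add_left 2 e
  have hA0 : e + 2 ≠ 0 := Nat.succ_ne_zero _
  have hcop : Q.Coprime n := hQ ▸ (hq.coprime_iff_not_dvd.mpr hqn).pow_left _
  have hgal := exists_aut_inertiaField hA hq (e := e + 1) hQ hqn E.isPrimitiveRoot
  have : IsGalois (inertiaField A) QBar := inferInstance
  set Lv := E.tateLevelPow (inertiaField A) hcop hq (e + 2) hA0 hQ L hL hLn hgal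
  have hact := E.actPow_moves (inertiaField A) hq (e + 2) hA0 hQ L hL hLn hcop hgal
  have hord' := nsmul_markLabel_eq_zero_iff hcop (NeZero.ne n) hLn
  have hP : GoodPt (markLabel hcop L) := ⟨fun h => by
    have := Nat.le_of_dvd (by norm_num) ((hord' 2).mp h); omega, fun h => by
    have := Nat.le_of_dvd (by norm_num) ((hord' 3).mp h); omega⟩
  have hlev : q * M * q = q ^ (e + 2 + 1) * M₀ := by rw [hM']; ring
  have hlow' : q * M = q ^ (e + 2) * M₀ := by rw [hM']; ring
  have hQN : Q ∣ q * M * q := hlev ▸ hQ ▸ dvd_mul_of_dvd_left (pow_dvd_pow q (by omega)) _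
  have hmk : ∀ (d : ℕ) [NeZero d], d ∣ q * M * q →
      qExpand QBar n (qExpand QBar d (jqModC QBar)) ∈ E.field (inertiaField A) :=
    fun d _ hd => qExpand_jd_mem E (inertiaField A) hP hcop hq hQ hM (hd.trans hlev.dvd) hA0
  -- the divisor and the function
  obtain ⟨D, rfl, hDfix⟩ := exists_fixed_rep hfix
  have hprin : ((m : ℤ) • (D : Divisor QBar (modularFunctionFieldBar (q * M * q)))).IsPrincipal := by
    have hx' : (m : ℤ) • Pic0.mk D = 0 := by rw [natCast_zsmul]; exact hx
    have h := (QuotientAddGroup.eq_zero_iff ((m : ℤ) • D)).mp hx'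
    rwa [AddSubgroup.mem_addSubgroupOf, AddSubgroup.coe_zsmul] at h
  obtain ⟨f, hf0, hffix, hford'⟩ := exists_fixed_fun hprin fun σ hσ => by
    refine Finsupp.ext fun P => ?_
    have h := DFunLike.congr_fun (hDfix σ hσ) P
    rw [SemilinearAut.divisor_smul_apply] at h ⊢
    rw [Finsupp.smul_apply, Finsupp.smul_apply, h]
  have hford : ∀ P : Place QBar (modularFunctionFieldBar (q * M * q)),
      P.ord f = (m : ℤ) * (D : Divisor QBar (modularFunctionFieldBar (q * M * q))) P := fun P => by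
    rw [← hford', Finsupp.smul_apply, smul_eq_mul]
  have hfr : (f : LaurentSeries QBar) ∈ ratField A (q * M * q) := mem_ratField f.2 hffix
  set φ := qEmb E n hmk
  set fr : ratField A (q * M * q) := ⟨(f : LaurentSeries QBar), hfr⟩
  have hfr0 : fr ≠ 0 := fun h => hf0 (Subtype.ext (by
    have := congrArg (ratIncl A (q * M * q)) h
    rwa [map_zero] at this))
  set y : E.field (inertiaField A) := φ fr with hy
  have hy0 : y ≠ 0 := (_root_.map_ne_zero φ).mpr hfr0
  have hycoe : (y : LaurentSeries QBar) = qExpand QBar n f := rfl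
  set u := Units.mk0 y hy0
  have hconst : ∀ a : inertiaField A,
      ((algebraMap (inertiaField A) (E.field (inertiaField A)) a : E.field (inertiaField A)) :
        LaurentSeries QBar) = HahnSeries.C (a : QBar) := fun a => algebraMap_laurent_comp a
  have hpl : Places (inertiaField A) m u := fun v hv => by
    refine dvd_log_valuation hDfix hf0 hford hfr (v.comap φ) fun a ha => ?_
    rw [Valuation.comap_apply,
      show φ (algebraMap (inertiaField A) (ratField A (q * M * q)) a)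
        = algebraMap (inertiaField A) (E.field (inertiaField A)) a from Subtype.ext ?_]
    · exact hv a ha
    · rw [hconst]
      show qExpand QBar n (ratIncl A (q * M * q) (algebraMap (inertiaField A) _ a)) = _
      rw [ratIncl_algebraMap, qExpand_C]
  have hfixed : Lv.FixedBy (higherComb hq hA2 hQ) u := by
    intro t ht
    refine Units.ext ?_
    show Lv.act t y = y
    refine fixed_of_gens E hmk _ (fun d' _ hd' z hz => ?_) hfr hycoe
    exact fixed_fixGroup E hP hcop hq hQ hM (hd'.trans hlev.dvd) hA0 ht (hact _) hz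
  -- the two norms
  have hmain : ∀ (uu : ZMod q → GL (Fin 2) (ZMod Q)),
      (∀ a, (uu a : Matrix (Fin 2) (Fin 2) (ZMod Q)).det = 1) →
      ∀ (ψ : modularFunctionFieldBar (q * M) →ₐ[QBar] modularFunctionFieldBar (q * M * q)),
      (∀ (σ : QBar ≃ₐ[ℚ] QBar) (y : modularFunctionFieldBar (q * M)),
        ψ (arithmeticRingAut (modularFunctionFieldFull (q * M)) σ y)
          = arithmeticRingAut (modularFunctionFieldFull (q * M * q)) σ (ψ y)) →
      finrankAlong QBar ψ ≤ q →
      (Divisor.pushforwardAlong ψ (FF.isIntegralAlong ψ)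
        (D : Divisor QBar (modularFunctionFieldBar (q * M * q)))).IsPrincipal →
      ∀ (c : ℕ) [NeZero c],
      (∀ z, qExpand QBar n (ψ z : LaurentSeries QBar) = qExpand QBar c (z : LaurentSeries QBar)) →
      ∀ (_ : ∀ (d : ℕ) [NeZero d], d ∣ q * M →
        qExpand QBar c (qExpand QBar d (jqModC QBar)) ∈ E.field (inertiaField A)),
      (∀ (a : ZMod q) (d : ℕ) [NeZero d], d ∣ q * M → ∀ z : E.field (inertiaField A),
        (z : LaurentSeries QBar) = qExpand QBar c (qExpand QBar d (jqModC QBar)) →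
          Lv.act (uu a) z = z) →
      ∀ (d₀ : ℕ) [NeZero d₀], d₀ ∣ q * M * q →
      (∀ (a b : ZMod q) (z : E.field (inertiaField A)),
        (z : LaurentSeries QBar) = qExpand QBar n (qExpand QBar d₀ (jqModC QBar)) →
          Lv.act ((uu a)⁻¹ * uu b) z = z → a = b) →
      ∏ a : ZMod q, Lv.transl u (uu a) ∈ constMulPow (inertiaField A) (E.field (inertiaField A)) m := by
    intro uu hdet ψ hψ hle hpr c _ hc hmem hfx d₀ _ hd₀ hmove
    obtain ⟨l, g, hl, hg0, hgfix, hng⟩ := exists_norm_root ψ hψ hm hf0 hffix hford hpr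
    have hprod := prod_act_eq_norm_family E hcop Lv.act hact
      (fun d _ hd => qExpand_jd_mem E QBar hP hcop hq hQ hM (hd.trans hlev.dvd) hA0)
      uu hdet ψ c hc hmem (by rwa [ZMod.card]) hfx d₀ hd₀ (hmk d₀ hd₀) hmove f y hycoe
    rw [hng, map_mul, map_pow, qExpand_C] at hprod
    have hgr := mem_ratField g.2 hgfix
    have hγ0 : qEmb E c hmem ⟨(g : LaurentSeries QBar), hgr⟩ ≠ 0 :=
      (_root_.map_ne_zero _).mpr fun h => hg0 (Subtype.ext (by
        have := congrArg (ratIncl A (q * M)) h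
        rwa [map_zero] at this))
    refine mem_constMulPow.mpr ⟨Units.mk0 l hl, Units.mk0 _ hγ0, Units.ext (Subtype.ext ?_)⟩
    rw [Units.coe_prod, IntermediateField.coe_prod]
    refine hprod.symm.trans ?_
    show _ = ((algebraMap (inertiaField A) (E.field (inertiaField A)) l *
      qEmb E c hmem ⟨(g : LaurentSeries QBar), hgr⟩ ^ m : E.field (inertiaField A)) :
        LaurentSeries QBar)
    rw [show ∀ p r : E.field (inertiaField A),
      ((p * r ^ m : E.field (inertiaField A)) : LaurentSeries QBar)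
        = (p : LaurentSeries QBar) * (r : LaurentSeries QBar) ^ m from fun _ _ => rfl, hconst]
    rfl
  have hnew' := hnew D rfl
  have hinvP : ∀ a b : ZMod Q, (uPlus a)⁻¹ * uPlus b = uPlus (b - a) := fun a b => by
    rw [inv_mul_eq_iff_eq_mul, uPlus_add, add_sub_cancel]
  have hinvM : ∀ a b : ZMod Q, (uMinus a)⁻¹ * uMinus b = uMinus (b - a) := fun a b => by
    rw [inv_mul_eq_iff_eq_mul, uMinus_add, add_sub_cancel]
  have hup := hmain (uUp Q) (fun a => by simp [uUp, uPlus, Matrix.det_fin_two])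
    (heckeAlphaBar QBar (q * M) q) (alpha_galois _ _) (finrankAlong_alpha_sq hq).le hnew'.1 n
    (fun z => by rw [coe_heckeAlphaBar])
    (fun d _ hd => hmk d (hd.trans (dvd_mul_right _ q)))
    (fun a d _ hd z hz => fixed_uUp E hP hcop hq hA0 hQ hM (hd.trans hlow'.dvd) a (hact _) hz)
    (Q * q) (hlev ▸ hQ ▸ Dvd.intro M₀ (by ring))
    (fun a b z hz h => by
      rw [uUp, uUp, hinvP] at h
      have hd := dvd_of_uPlus_fix E hP hcop hQ hA0 (hact _) hz h
      have h2 := map_dvd (ZMod.castHom (hQ ▸ dvd_pow_self q hA0 : q ∣ Q) (ZMod q)) hd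
      rw [map_natCast, ZMod.natCast_self, zero_dvd_iff, map_sub, map_natCast, map_natCast,
        ZMod.natCast_zmod_val, ZMod.natCast_zmod_val, sub_eq_zero] at h2
      exact h2.symm)
  have hqd : ∀ (d : ℕ) [NeZero d],
      qExpand QBar (n * q) (qExpand QBar d (jqModC QBar))
        = qExpand QBar n (qExpand QBar (q * d) (jqModC QBar)) := fun d _ => by
    rw [qExpand_qExpand, qExpand_qExpand]
    exact qExpand_congr (by ring) _
  have hlow := hmain (uLow Q (e + 2)) (fun a => by simp [uLow, uMinus, Matrix.det_fin_two])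
    (heckeBetaBar QBar (q * M) q) (beta_galois _ _) (finrankAlong_beta_sq_le hq) hnew'.2 (n * q)
    (fun z => by rw [coe_heckeBetaBar, qExpand_qExpand])
    (fun d _ hd => hqd d ▸ hmk (q * d) (by rw [mul_comm (q * M) q]; exact mul_dvd_mul_left q hd))
    (fun a d _ hd z hz => fixed_uLow E hP hcop hq hA0 hQ hM (d := q * d)
      (hlev ▸ by rw [mul_comm (q * M) q]; exact mul_dvd_mul_left q hd) (dvd_mul_right q d) a
      (hact _) (hz.trans (hqd d)))
    1 (one_dvd _)
    (fun a b z hz h => by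
      rw [uLow, uLow, hinvM] at h
      have h0 := eq_zero_of_uMinus_fix E hP hcop (hact _) (hz.trans (by rw [qExpand_one_apply])) h
      rw [sub_eq_zero, ZMod.natCast_eq_natCast_iff, Nat.ModEq] at h0
      have hlt : ∀ t : ZMod q, q ^ (e + 2 - 1) * t.val < Q := fun t => by
        rw [hQ, show q ^ (e + 2) = q ^ (e + 2 - 1) * q from (pow_succ q _)]
        exact (Nat.mul_lt_mul_left (pow_pos hq.pos _)).2 (ZMod.val_lt t)
      rw [Nat.mod_eq_of_lt (hlt b), Nat.mod_eq_of_lt (hlt a)] at h0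
      exact (ZMod.val_injective _ (Nat.eq_of_mul_eq_mul_left (pow_pos hq.pos _) h0)).symm)
  obtain ⟨κ, γ, hlam⟩ := mem_constMulPow.mp (lam_mem_constMulPow Lv hq hA2 hQ hup hlow)
  obtain ⟨κ', h, hh⟩ := exists_const_mul_pow (E.cuspEmbPow hA hq hcop (e + 2) hA0 hQ L hL hLn hgal)
    (higherComb hq hA2 hQ) (U := inertialBase hA hq) (TateLevel.isUnit_natCast hmq) hfixed hpl hlam
  exact smul_mk_eq_zero_of_pow E hQN hmk hm hf0 hford hfr (congrArg Units.val hh)

omit [NeZero Q] [NeZero n] [NeZero (Q * n)] [NeZero q] [NeZero M₀] in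
/-- **The geometric theorem** when `q³` divides the level. -/
theorem fixedNewTorsionBound_of_dvd {q M : ℕ} [NeZero q] [NeZero M] (hq : q.Prime) (hqM : q ∣ M) :
    FixedNewTorsionBound q M := by
  obtain ⟨L, hL, hqL⟩ : ∃ L : ℕ, (L = 7 ∨ L = 9) ∧ ¬ q ∣ L := by
    by_cases h : q = 7
    · exact ⟨9, Or.inr rfl, by subst h; norm_num⟩
    · exact ⟨7, Or.inl rfl, fun hd => h ((Nat.prime_dvd_prime_iff_eq hq (by norm_num)).mp hd)⟩
  obtain ⟨e, M₀, hqM₀, hM⟩ := Nat.exists_eq_pow_mul_and_not_dvd (NeZero.ne M) q hq.ne_one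
  obtain ⟨e, rfl⟩ : ∃ e', e = e' + 1 := Nat.exists_eq_succ_of_ne_zero fun h => hqM₀ (by
    rwa [hM, h, pow_zero, one_mul] at hqM)
  have : NeZero M₀ := ⟨fun h => hqM₀ (h ▸ dvd_zero q)⟩
  have : NeZero (M₀ * L) := ⟨mul_ne_zero (NeZero.ne M₀) (by omega)⟩
  have : NeZero (q ^ (e + 2)) := ⟨pow_ne_zero _ hq.ne_zero⟩
  have : NeZero (q ^ (e + 2) * (M₀ * L)) := ⟨mul_ne_zero (NeZero.ne _) (NeZero.ne _)⟩
  obtain ⟨E⟩ := exists_setup (q ^ (e + 2) * (M₀ * L))
  refine ⟨glueExp (higherComb hq (Nat.le_add_left 2 e) (rfl : q ^ (e + 2) = q ^ (e + 2))) *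
    (Nat.card (Matrix (Fin 2) (Fin 2) (ZMod (q ^ (e + 2) * (M₀ * L))))).factorial,
    Nat.mul_pos (glueExp_pos _) (Nat.factorial_pos _),
    fun lam k hlam hne A hA x hx hfix hnew => ?_⟩
  exact smul_eq_zero_of_fixed E hq rfl
    (fun h => (hq.dvd_mul.mp h).elim hqM₀ hqL) (dvd_mul_right M₀ L) hL (dvd_mul_left L M₀) hM
    (pow_pos hlam.pos k) (((Nat.coprime_primes hlam hq).mpr hne).pow_left k) hA hx hfix hnew

omit [NeZero Q] [NeZero n] [NeZero (Q * n)] [NeZero q] [NeZero M₀] in
/-- The geometric theorem at every level `q M q`. -/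
theorem fixedNewTorsionBound_all {q M : ℕ} [NeZero q] [NeZero M] (hq : q.Prime) :
    FixedNewTorsionBound q M :=
  (em (q ∣ M)).elim (fixedNewTorsionBound_of_dvd hq) (fixedNewTorsionBound hq)

end Fermat.Agent.Carayol.Higher

end
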