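import Fermat.Agent.Carayol.Higher.Frey
import Fermat.Agent.Carayol.Higher.Geometric
import Fermat.Agent.S35
import Fermat.Agent.S44

/-!
# Lowering a modular Frey curve to level two

The only hypothesis is the lowering at odd primes away from `p`, which is `S43.result`.
-/

set_option autoImplicit false

noncomputable section

open WeierstrassCurve.Affine.Point CongruenceSubgroup

namespace Fermat.Agent.Carayol.Higher

/-- A conductor level at which the Frey representation is modular, without hypotheses. -/
theorem exists_conductorLevel_of_modular (P : FreyPackage) (hmod : P.freyCurve.IsModular) :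
    ∃ N : ℕ, P.IsConductorLevel N ∧ P.ModularRepOfLevel N :=
  exists_conductorLevel_of_isModular
    (GaloisReps.congruenceProperty_all EichlerShimura.injectiveOnTorsion_all)
    (fun _ _ _ _ hq => fixedNewTorsionBound_all hq) S35.result P hmod

/-- A modular irreducible Frey curve gives a form of level two, given lowering at odd primes. -/
theorem exists_form_two_of_lowerOdd (h43 : RT.Frey.LowerOddInput) (P : FreyPackage)
    (hmod : P.freyCurve.IsModular)
    (hirr : GaloisRepIsIrreducible (K := AlgebraicClosure ℚ) ℚ P.freyCurve P.p) :
    ∃ f : CuspForm (Gamma0 2) 2, f ≠ 0 :=
  RT.Frey.exists_form_two h43 S44.result P hirr (exists_conductorLevel_of_modular P hmod)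

end Fermat.Agent.Carayol.Higher

end
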